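import Fermat.Agent.MonomialArtin.Span

/-!
# The Aramata–Brauer lemma

The order of a finite group times its regular character minus one is a natural combination of
characters induced from linear characters of cyclic subgroups.
-/

set_option autoImplicit false
set_option linter.style.haveILetI false
set_option linter.unusedSectionVars false

noncomputable section

open Finset Module FA.FrobeniusGroups FA.CharacterTheory FA.BrauerInduction FA.MonomialArtin

namespace FA.ZetaDivisibility

variable {G : Type*} [Group G] [Fintype G]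

open scoped Classical in
/-- The character on `D` of `φ` times the regular one less `|D|` at the generators. -/
def genDefect (D : Subgroup G) (y : D) : ℂ :=
  (if y = 1 then (#(univ.filter fun z : D => Subgroup.zpowers (z : G) = D) : ℂ) * Nat.card D
    else 0) - if Subgroup.zpowers (y : G) = D then (Nat.card D : ℂ) else 0

open scoped Classical in
/-- The number of elements generating `D`. -/
theorem card_gen (D : Subgroup G) :
    #(univ.filter fun z : D => Subgroup.zpowers (z : G) = D) =
      #(univ.filter fun g : G => Subgroup.zpowers g = D) := by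
  refine card_bij (fun z _ => (z : G)) (fun z hz => mem_filter.2 ⟨mem_univ _, (mem_filter.1 hz).2⟩)
    (fun a _ b _ h => Subtype.ext h) fun g hg => ?_
  have h := (mem_filter.1 hg).2
  exact ⟨⟨g, h ▸ Subgroup.mem_zpowers g⟩, mem_filter.2 ⟨mem_univ _, h⟩, rfl⟩

open scoped Classical in
theorem induced_genDefect (D : Subgroup G) (x : G) :
    induced D (genDefect D) x =
      (if x = 1 then (Nat.card G : ℂ) * #(univ.filter fun g : G => Subgroup.zpowers g = D) else 0) -
        ∑ g : G, if Subgroup.zpowers (g * x * g⁻¹) = D then (1 : ℂ) else 0 := by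
  have hD : (Nat.card D : ℂ) ≠ 0 := Nat.cast_ne_zero.2 Nat.card_pos.ne'
  have hterm : ∀ g : G, zext D (genDefect D) (g * x * g⁻¹) =
      (Nat.card D : ℂ) * ((if x = 1 then (#(univ.filter fun g : G => Subgroup.zpowers g = D) : ℂ)
        else 0) - if Subgroup.zpowers (g * x * g⁻¹) = D then 1 else 0) := fun g => by
    have h1 : (g * x * g⁻¹ = 1) ↔ x = 1 := by rw [mul_inv_eq_one, mul_eq_left]
    by_cases h : g * x * g⁻¹ ∈ D
    · rw [zext, dif_pos h, genDefect, card_gen, if_congr (Subtype.ext_iff.trans h1) rfl rfl,
        mul_sub, mul_ite, mul_zero, mul_ite, mul_zero, mul_one, mul_comm (Nat.card D : ℂ)]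
    · rw [zext_of_notMem _ _ h,
        if_neg (c := x = 1) fun hx => h (by rw [h1.2 hx]; exact one_mem D),
        if_neg (c := Subgroup.zpowers (g * x * g⁻¹) = D) fun hz => h (hz ▸ Subgroup.mem_zpowers _),
        sub_zero, mul_zero]
  rw [induced_eq, sum_congr rfl fun g _ => hterm g, ← mul_sum, inv_mul_cancel_left₀ hD,
    sum_sub_distrib, sum_const, card_univ, nsmul_eq_mul, ← Nat.card_eq_fintype_card, mul_ite,
    mul_zero]

open scoped Classical in
theorem genDefect_mem (D : Subgroup G) : genDefect D ∈ monomialSpan D := by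
  by_cases hC : ∃ g, Subgroup.zpowers g = D
  swap
  · push Not at hC
    have h0 : genDefect D = 0 := funext fun y => by
      rw [genDefect, if_neg (hC _), card_gen, filter_eq_empty_iff.2 fun g _ => hC g, card_empty,
        Nat.cast_zero, zero_mul, ite_self, sub_zero]
      rfl
    rw [h0]
    exact zero_mem _
  haveI hcyc : IsCyclic D := by
    obtain ⟨g, rfl⟩ := hC
    infer_instance
  letI := hcyc.commGroup
  have hcomm : ∀ a b : D, a * b = b * a := fun a b => mul_comm a b
  have hcls : ∀ g x : D, genDefect D (g * x * g⁻¹) = genDefect D x := fun g x => by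
    rw [hcomm g x, mul_inv_cancel_right]
  have key : ∀ χ ∈ irr D, ∃ k : ℕ, pairing (genDefect D) χ = k := fun χ hχ => by
    obtain ⟨ψ, hψ⟩ := exists_hom_of_comm hcomm hχ
    subst hψ
    have hgen : ∀ y : D, Subgroup.zpowers y = ⊤ ↔ Subgroup.zpowers (y : G) = D := fun y => by
      rw [← Subgroup.coe_subtype, ← MonoidHom.map_zpowers]
      constructor
      · intro h
        rw [h, ← MonoidHom.range_eq_map, Subgroup.range_subtype]
      · intro h
        refine Subgroup.map_injective D.subtype_injective (h.trans ?_)
        rw [← MonoidHom.range_eq_map, Subgroup.range_subtype]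
    obtain ⟨j, hj⟩ := exists_int_sum_generators (linRep ψ⁻¹) (⊤ : Subgroup D)
    rw [linRep_character, filter_congr fun y _ => hgen y] at hj
    set S : Finset D := univ.filter fun z : D => Subgroup.zpowers (z : G) = D
    have hle : j ≤ (#S : ℤ) := by
      have h2 : ‖(j : ℂ)‖ ≤ #S := by
        rw [← hj]
        refine (norm_sum_le _ _).trans ?_
        rw [sum_congr rfl fun y _ => Complex.norm_eq_one_of_pow_eq_one (n := Nat.card D) (by
          rw [← Units.val_pow_eq_pow_val, ← map_pow, pow_card_eq_one', map_one, Units.val_one])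
          Nat.card_pos.ne', sum_const, nsmul_one]
      rw [Complex.norm_intCast] at h2
      exact_mod_cast (le_abs_self (j : ℝ)).trans h2
    refine ⟨((#S : ℤ) - j).toNat, ?_⟩
    rw [← Int.cast_natCast (R := ℂ), Int.toNat_of_nonneg (sub_nonneg.2 hle), Int.cast_sub,
      Int.cast_natCast, ← hj, pairing]
    have hterm : ∀ y : D, genDefect D y * (ψ y⁻¹ : ℂ) =
        (if y = 1 then (#S : ℂ) * Nat.card D else 0) -
          (Nat.card D : ℂ) * if Subgroup.zpowers (y : G) = D then (ψ⁻¹ y : ℂ) else 0 := fun y => by
      rw [genDefect, sub_mul, ite_mul, zero_mul, ite_mul, zero_mul, mul_ite, mul_zero, map_inv,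
        MonoidHom.inv_apply]
      congr 1
      split_ifs with hy
      · simp [hy, S]
      · rfl
    rw [sum_congr rfl fun y _ => hterm y, sum_sub_distrib, sum_ite_eq', if_pos (mem_univ _),
      ← mul_sum, ← sum_filter, mul_sub, ← mul_assoc, ← mul_assoc,
      inv_mul_cancel₀ (Nat.cast_ne_zero.2 Nat.card_pos.ne'), one_mul,
      mul_right_comm, inv_mul_cancel₀ (Nat.cast_ne_zero.2 Nat.card_pos.ne'), one_mul]
  choose! k hk using key
  rw [show genDefect D = ∑ χ ∈ irr D, k χ • χ from funext fun y => by
    rw [expansion hcls y, Finset.sum_apply]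
    exact sum_congr rfl fun χ hχ => by rw [hk χ hχ, Pi.smul_apply, nsmul_eq_mul]]
  refine AddSubmonoid.sum_mem _ fun χ hχ => AddSubmonoid.nsmul_mem _ ?_ _
  obtain ⟨ψ, rfl⟩ := exists_hom_of_comm hcomm hχ
  exact linear_mem ψ

open scoped Classical in
/-- **Aramata–Brauer.** -/
theorem regular_sub_one_mem :
    Nat.card G • (fun x : G => (if x = 1 then (Nat.card G : ℂ) else 0) - 1) ∈ monomialSpan G := by
  haveI := Fintype.ofFinite (Subgroup G)
  have h : Nat.card G • (fun x : G => (if x = 1 then (Nat.card G : ℂ) else 0) - 1) =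
      ∑ D : Subgroup G, induced D (genDefect D) := by
    funext x
    have h1 : ∑ D : Subgroup G, (#(univ.filter fun g : G => Subgroup.zpowers g = D) : ℂ) =
        Nat.card G := by
      rw [← Nat.cast_sum, ← card_eq_sum_card_fiberwise fun g _ => mem_univ (Subgroup.zpowers g),
        card_univ, Nat.card_eq_fintype_card]
    rw [Finset.sum_apply, sum_congr rfl fun D _ => induced_genDefect D x, sum_sub_distrib,
      sum_comm, Pi.smul_apply, nsmul_eq_mul, mul_sub, mul_one,
      sum_congr (s₁ := (univ : Finset G)) rfl fun g _ => sum_ite_eq univ (Subgroup.zpowers (g * x * g⁻¹)) fun _ => (1 : ℂ)]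
    by_cases hx : x = 1
    · simp [hx, ← mul_sum, h1, Nat.card_eq_fintype_card]
    · simp [hx, Nat.card_eq_fintype_card]
  rw [h]
  exact AddSubmonoid.sum_mem _ fun D _ => induced_mem_monomialSpan D (genDefect_mem D)

end FA.ZetaDivisibility

end
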