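import Fermat.Agent.MonomialArtin.Span
import Mathlib.GroupTheory.Solvable
import Mathlib.GroupTheory.FiniteAbelian.Duality
import Mathlib.Analysis.Complex.Polynomial.Basic
import Mathlib.RingTheory.RootsOfUnity.AlgebraicallyClosed

/-!
# The lemma of Uchida and van der Waall

In a finite solvable group a permutation character of a transitive action minus one is a natural
combination of characters induced from linear characters of subgroups.
-/

set_option autoImplicit false
set_option linter.style.haveILetI false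
set_option linter.unusedSectionVars false

noncomputable section

universe u

open Finset Module FA.FrobeniusGroups FA.CharacterTheory FA.BrauerInduction FA.MonomialArtin

namespace FA.ZetaDivisibility

variable {G : Type*} [Group G] [Fintype G]

open scoped Classical in
/-- Inflation of an induced function along a surjection. -/
theorem induced_comap {Q : Type*} [Group Q] [Fintype Q] (f : G →* Q)
    (hf : Function.Surjective f) (H : Subgroup Q) (φ : H → ℂ) (x : G) :
    induced (H.comap f) (fun y => φ ⟨f y, y.2⟩) x = induced H φ (f x) := by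
  have hfib : ∀ q : Q, #(univ.filter fun g => f g = q) = Nat.card f.ker := fun q => by
    obtain ⟨g₀, rfl⟩ := hf q
    rw [← Nat.card_eq_finsetCard]
    exact Nat.card_congr
      { toFun := fun g => ⟨g₀⁻¹ * g.1, by
          rw [MonoidHom.mem_ker, map_mul, map_inv, (mem_filter.1 g.2).2, inv_mul_cancel]⟩
        invFun := fun t => ⟨g₀ * t.1, mem_filter.2 ⟨mem_univ _, by
          rw [map_mul, MonoidHom.mem_ker.1 t.2, mul_one]⟩⟩
        left_inv := fun g => Subtype.ext (mul_inv_cancel_left _ _)
        right_inv := fun t => Subtype.ext (inv_mul_cancel_left _ _) }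
  have hterm : ∀ g : G, zext (H.comap f) (fun y => φ ⟨f y, y.2⟩) (g * x * g⁻¹) =
      zext H φ (f g * f x * (f g)⁻¹) := fun g => by
    rw [← map_inv, ← map_mul, ← map_mul]
    by_cases h : f (g * x * g⁻¹) ∈ H
    · rw [zext, dif_pos (Subgroup.mem_comap.2 h), zext, dif_pos h]
    · rw [zext_of_notMem _ _ h, zext_of_notMem _ _ fun hm => h (Subgroup.mem_comap.1 hm)]
  have hcard : Nat.card (H.comap f) = Nat.card H * Nat.card f.ker := by
    have h1 : Nat.card (H.comap f) = ∑ q ∈ univ.filter (fun q => q ∈ H), Nat.card f.ker := by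
      rw [Nat.card_eq_fintype_card, Fintype.card_subtype,
        card_eq_sum_card_fiberwise (f := f) (t := univ.filter fun q => q ∈ H)
          (fun g hg => mem_filter.2 ⟨mem_univ _, Subgroup.mem_comap.1 (mem_filter.1 hg).2⟩)]
      refine sum_congr rfl fun q hq => ?_
      rw [← hfib q, filter_filter]
      congr 1
      exact filter_congr fun g _ => ⟨fun h => h.2, fun h => ⟨Subgroup.mem_comap.2
        (h ▸ (mem_filter.1 hq).2), h⟩⟩
    rw [h1, sum_const, smul_eq_mul, Nat.card_eq_fintype_card (α := H), Fintype.card_subtype]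
  rw [induced_eq, induced_eq, sum_congr rfl fun g _ => hterm g,
    ← sum_fiberwise univ (fun g => f g) fun g => zext H φ (f g * f x * (f g)⁻¹), hcard,
    sum_congr rfl fun q _ => show ∑ g ∈ univ.filter (fun g => f g = q),
        zext H φ (f g * f x * (f g)⁻¹) = (Nat.card f.ker : ℂ) * zext H φ (q * f x * q⁻¹) by
      rw [sum_congr rfl fun g hg => by rw [(mem_filter.1 hg).2], sum_const, hfib, nsmul_eq_mul],
    ← mul_sum, Nat.cast_mul, mul_inv, mul_assoc,
    inv_mul_cancel_left₀ (Nat.cast_ne_zero.2 Nat.card_pos.ne')]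

/-- Inflation preserves monomial functions. -/
theorem comp_mem_monomialSpan {Q : Type*} [Group Q] [Fintype Q] (f : G →* Q)
    (hf : Function.Surjective f) {φ : Q → ℂ} (hφ : φ ∈ monomialSpan Q) :
    φ ∘ f ∈ monomialSpan G := by
  induction hφ using AddSubmonoid.closure_induction with
  | zero => exact zero_mem _
  | add a b _ _ ha hb => exact add_mem ha hb
  | mem a ha =>
    obtain ⟨H, ψ, rfl⟩ := ha
    refine AddSubmonoid.subset_closure ⟨H.comap f, ψ.comp ((f.comp (H.comap f).subtype).codRestrict
      H fun y => y.2), funext fun x => ?_⟩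
    exact (induced_comap f hf H (fun y => (ψ y : ℂ)) x).symm

open scoped Classical in
/-- The sum of all characters of a finite commutative group at an element. -/
theorem sum_characters {Q : Type*} [CommGroup Q] [Finite Q] [Fintype (Q →* ℂˣ)] (a : Q) :
    ∑ φ : Q →* ℂˣ, (φ a : ℂ) = if a = 1 then (Nat.card Q : ℂ) else 0 := by
  haveI := Fintype.ofFinite Q
  split_ifs with ha
  · subst ha
    simp [← Nat.card_eq_fintype_card, CommGroup.card_monoidHom_of_hasEnoughRootsOfUnity Q ℂ]
  · obtain ⟨φ₀, hφ₀⟩ := CommGroup.exists_apply_ne_one_of_hasEnoughRootsOfUnity Q ℂ ha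
    have h1 : (φ₀ a : ℂ) * ∑ φ : Q →* ℂˣ, (φ a : ℂ) = ∑ φ : Q →* ℂˣ, (φ a : ℂ) := by
      rw [mul_sum]
      exact Fintype.sum_equiv (Equiv.mulLeft φ₀) _ _ fun φ => by simp
    refine (mul_eq_zero.1 (?_ : ((φ₀ a : ℂ) - 1) * _ = 0)).resolve_left fun h => hφ₀ ?_
    · rw [sub_mul, h1, one_mul, sub_self]
    · exact Units.ext (sub_eq_zero.1 h)

open scoped Classical in
/-- **The case of a complement of an abelian normal subgroup.** -/
theorem complement_mem {A H : Subgroup G} [A.Normal] (hA : ∀ a ∈ A, ∀ b ∈ A, a * b = b * a)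
    (hinf : A ⊓ H = ⊥) (hsup : A ⊔ H = ⊤) :
    (fun x => induced H (fun _ => (1 : ℂ)) x - 1) ∈ monomialSpan G := by
  letI : CommGroup A :=
    { (inferInstance : Group A) with mul_comm := fun a b => Subtype.ext (hA a a.2 b b.2) }
  have huniq : ∀ (a b : A) (x : G), (a : G)⁻¹ * x ∈ H → (b : G)⁻¹ * x ∈ H → a = b := by
    intro a b x ha hb
    have h1 : (a : G)⁻¹ * b ∈ A ⊓ H := ⟨mul_mem (A.inv_mem a.2) b.2, by
      have := mul_mem ha (inv_mem hb)
      rwa [mul_inv_rev, inv_inv, mul_assoc, mul_inv_cancel_left] at this⟩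
    rw [hinf, Subgroup.mem_bot, inv_mul_eq_one] at h1
    exact Subtype.ext h1
  have hex : ∀ x : G, ∃ a : A, (a : G)⁻¹ * x ∈ H := fun x => by
    have hx : x ∈ ((A ⊔ H : Subgroup G) : Set G) := by rw [hsup]; trivial
    rw [Subgroup.normal_mul] at hx
    obtain ⟨a, ha, h, hh, rfl⟩ := hx
    exact ⟨⟨a, ha⟩, by simpa using hh⟩
  choose α hα using hex
  set κ : G → (A →* A) := fun x => (MulAut.conjNormal x : A ≃* A).toMonoidHom
  have hκ : ∀ (x : G) (z : A), ((κ x z : A) : G) = x * z * x⁻¹ := fun x z =>
    MulAut.conjNormal_apply x z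
  have hαmul : ∀ x y : G, α (x * y) = α x * κ x (α y) := fun x y => huniq _ _ (x * y) (hα _) (by
    rw [Subgroup.coe_mul, hκ]
    have h2 : (κ ((α x : G)⁻¹ * x) (α y) : G) = κ x (α y) := by
      rw [hκ, hκ, show (α x : G)⁻¹ * x * α y * ((α x : G)⁻¹ * x)⁻¹ =
        (α x : G)⁻¹ * (x * α y * x⁻¹) * α x by group, ← hκ,
        hA _ (inv_mem (α x).2) _ (κ x (α y)).2, inv_mul_cancel_right]
    rw [← hκ, ← h2, hκ, show ((α x : G) * ((α x : G)⁻¹ * x * α y * ((α x : G)⁻¹ * x)⁻¹))⁻¹ *
      (x * y) = ((α x : G)⁻¹ * x) * ((α y : G)⁻¹ * y) by group]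
    exact mul_mem (hα x) (hα y))
  have hα1 : α 1 = 1 := huniq _ _ 1 (hα 1) (by simp)
  have hκ1 : ∀ z, κ 1 z = z := fun z => Subtype.ext (by rw [hκ]; simp)
  have hκmul : ∀ x y z, κ (x * y) z = κ x (κ y z) := fun x y z => Subtype.ext (by
    rw [hκ, hκ, hκ]; group)
  letI : MulAction G (A →* ℂˣ) :=
    { smul := fun x l => l.comp (κ x⁻¹)
      one_smul := fun l => MonoidHom.ext fun z => by
        show l (κ 1⁻¹ z) = l z
        rw [inv_one, hκ1]
      mul_smul := fun x y l => MonoidHom.ext fun z => by
        show l (κ (x * y)⁻¹ z) = l (κ y⁻¹ (κ x⁻¹ z))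
        rw [mul_inv_rev, hκmul] }
  have hsmul : ∀ (x : G) (l : A →* ℂˣ) z, (x • l) (κ x z) = l z := fun x l z => by
    show l (κ x⁻¹ (κ x z)) = l z
    rw [← hκmul, inv_mul_cancel, hκ1]
  have hone' : ∀ x : G, x • (1 : A →* ℂˣ) = 1 := fun x => MonoidHom.ext fun z => rfl
  letI : MulAction G {l : A →* ℂˣ // l ≠ 1} :=
    { smul := fun x l => ⟨x • l.1, fun h => l.2 (by
        rw [← inv_smul_smul x l.1, h, hone'])⟩
      one_smul := fun l => Subtype.ext (one_smul _ l.1)
      mul_smul := fun x y l => Subtype.ext (mul_smul x y l.1) }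
  haveI : Fintype (A →* ℂˣ) := Fintype.ofFinite _
  have hmem := sum_fixed_mem (G := G) (ι := {l : A →* ℂˣ // l ≠ 1})
    (fun x l => ((x • l.1) (α x) : ℂ)) (fun l => by simp [hα1]) fun x y l => by
    show (((x * y) • l.1) (α (x * y)) : ℂ) = (y • l.1) (α y) * (x • (y • l.1)) (α x)
    rw [mul_smul, hαmul, map_mul, hsmul, Units.val_mul, mul_comm]
  refine (congrArg (· ∈ monomialSpan G) (funext fun x => ?_)).mp hmem
  set D : A →* A :=
    { toFun := fun q => q * (κ x q)⁻¹
      map_one' := by rw [map_one, inv_one, mul_one]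
      map_mul' := fun p q => by rw [map_mul, mul_inv, mul_mul_mul_comm] }
  have hfix : ∀ l : A →* ℂˣ, x • l = l ↔ D.range ≤ l.ker := fun l => by
    refine ⟨fun h => ?_, fun h => MonoidHom.ext fun z => ?_⟩
    · rintro _ ⟨q, rfl⟩
      show l (q * (κ x q)⁻¹) = 1
      have h2 := hsmul x l q
      rw [h] at h2
      rw [map_mul, map_inv, h2, mul_inv_cancel]
    · have h1 : l (κ x⁻¹ z * (κ x (κ x⁻¹ z))⁻¹) = 1 := h ⟨κ x⁻¹ z, rfl⟩
      rw [← hκmul, mul_inv_cancel, hκ1, map_mul, map_inv, mul_inv_eq_one] at h1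
      exact h1
  -- the fixed characters
  haveI : Fintype (A ⧸ D.range →* ℂˣ) := Fintype.ofFinite _
  have hchar : ∑ l : A →* ℂˣ, (if x • l = l then (l (α x) : ℂ) else 0) =
      if α x ∈ D.range then (Nat.card D.ker : ℂ) else 0 := by
    rw [← sum_filter, sum_bij' (t := (univ : Finset (A ⧸ D.range →* ℂˣ)))
      (g := fun φ => (φ (QuotientGroup.mk (α x)) : ℂ))
      (fun l hl => QuotientGroup.lift D.range l ((hfix l).1 (mem_filter.1 hl).2))
      (fun φ _ => φ.comp (QuotientGroup.mk' D.range))
      (fun _ _ => mem_univ _) (fun φ _ => mem_filter.2 ⟨mem_univ _, (hfix _).2 fun q hq => by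
        show φ (QuotientGroup.mk q) = 1
        rw [(QuotientGroup.eq_one_iff q).2 hq, map_one]⟩)
      (fun l _ => MonoidHom.ext fun z => rfl) (fun φ _ => by ext z; rfl)
      fun l _ => rfl, sum_characters]
    by_cases hm : α x ∈ D.range
    swap
    · rw [if_neg hm, if_neg fun h => hm ((QuotientGroup.eq_one_iff (α x)).1 h)]
    rw [if_pos hm, if_pos ((QuotientGroup.eq_one_iff (α x)).2 hm), Nat.cast_inj]
    refine Nat.eq_of_mul_eq_mul_right (Nat.card_pos (α := D.range)) ?_
    rw [← Subgroup.card_eq_card_quotient_mul_card_subgroup,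
      Subgroup.card_eq_card_quotient_mul_card_subgroup D.ker,
      Nat.card_congr (QuotientGroup.quotientKerEquivRange D).toEquiv, mul_comm]
  -- the fixed cosets
  have hperm : induced H (fun _ => (1 : ℂ)) x =
      if α x ∈ D.range then (Nat.card D.ker : ℂ) else 0 := by
    rw [induced_one, permChar]
    let e : A → G ⧸ H := fun q => QuotientGroup.mk (q : G)
    have he : Function.Bijective e := ⟨fun a b hab => huniq a b b (QuotientGroup.eq.1 hab) (by simp),
      fun y => by
        induction y using QuotientGroup.induction_on with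
        | H g => exact ⟨α g, QuotientGroup.eq.2 (hα g)⟩⟩
    have hiff : ∀ q : A, x • e q = e q ↔ D q = α x := fun q => by
      show (QuotientGroup.mk (x * q) : G ⧸ H) = QuotientGroup.mk (q : G) ↔ q * (κ x q)⁻¹ = α x
      rw [mul_inv_eq_iff_eq_mul, eq_comm (b := (QuotientGroup.mk (q : G) : G ⧸ H)),
        QuotientGroup.eq, show α x * κ x q = α (x * q) by
          rw [hαmul, show α (q : G) = q from huniq _ _ _ (hα _) (by simp)]]
      exact ⟨fun h => huniq _ _ _ h (hα _), fun h => by have h' := hα (x * q); rwa [← h] at h'⟩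
    rw [← Nat.card_congr ((Equiv.ofBijective e he).subtypeEquiv (p := fun q => D q = α x)
      (q := fun y => y ∈ MulAction.fixedBy (G ⧸ H) x) fun q => (hiff q).symm)]
    split_ifs with hm
    · obtain ⟨q₀, hq₀⟩ := hm
      congr 1
      exact Nat.card_congr
        { toFun := fun q => ⟨q₀⁻¹ * q.1, by
            rw [MonoidHom.mem_ker, map_mul, map_inv, hq₀, q.2, inv_mul_cancel]⟩
          invFun := fun t => ⟨q₀ * t.1, by rw [map_mul, hq₀, MonoidHom.mem_ker.1 t.2, mul_one]⟩
          left_inv := fun q => Subtype.ext (mul_inv_cancel_left _ _)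
          right_inv := fun t => Subtype.ext (inv_mul_cancel_left _ _) }
    · haveI : IsEmpty {q : A // D q = α x} := ⟨fun q => hm ⟨q.1, q.2⟩⟩
      simp
  rw [hperm, ← hchar, ← add_sum_erase univ _ (mem_univ (1 : A →* ℂˣ)), if_pos (hone' x),
    MonoidHom.one_apply, Units.val_one, add_sub_cancel_left, sum_subtype (univ.erase (1 : A →* ℂˣ))
    (p := fun l => l ≠ 1) fun l => by simp]
  refine sum_congr rfl fun l _ => ?_
  have hiff : x • l = l ↔ x • l.1 = l.1 := Subtype.ext_iff
  by_cases h : x • l.1 = l.1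
  · rw [if_pos (hiff.2 h), if_pos h, h]
  · rw [if_neg (fun h' => h (hiff.1 h')), if_neg h]

/-- A nontrivial solvable group has a nontrivial abelian normal subgroup. -/
theorem exists_abelian_normal {G : Type*} [Group G] [Nontrivial G] (hG : Group.IsSolvable G) :
    ∃ A : Subgroup G, A.Normal ∧ A ≠ ⊥ ∧ ∀ a ∈ A, ∀ b ∈ A, a * b = b * a := by
  classical
  have hex : ∃ n, derivedSeries G n = ⊥ := hG.solvable
  obtain ⟨n, hn⟩ : ∃ n, Nat.find hex = n + 1 := by
    refine Nat.exists_eq_succ_of_ne_zero fun h0 => ?_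
    have h1 := Nat.find_spec hex
    rw [h0, derivedSeries_zero] at h1
    exact top_ne_bot h1
  refine ⟨derivedSeries G n, derivedSeries_normal G n, Nat.find_min hex (by omega), fun a ha b hb => ?_⟩
  have h1 := Nat.find_spec hex
  rw [hn, derivedSeries_succ] at h1
  exact Subgroup.mem_centralizer_iff.1 ((Subgroup.commutator_eq_bot_iff_le_centralizer.1 h1) hb) a ha

/-- **Uchida–van der Waall.** -/
theorem permChar_sub_one_mem : ∀ (n : ℕ) (G : Type u) [Group G] [Fintype G], Nat.card G = n →
    Group.IsSolvable G → ∀ H : Subgroup G,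
      (fun x => induced H (fun _ => (1 : ℂ)) x - 1) ∈ monomialSpan G := by
  classical
  intro n
  induction n using Nat.strong_induction_on with
  | _ n ih =>
    intro G _ _ hn hG H
    subst hn
    induction hm : H.index using Nat.strong_induction_on generalizing H with
    | _ m ihm =>
      subst hm
      rcases eq_or_ne H ⊤ with rfl | hH
      · haveI := QuotientGroup.subsingleton_quotient_top (G := G)
        rw [show (fun x => induced (⊤ : Subgroup G) (fun _ => (1 : ℂ)) x - 1) = 0 from funext fun x => by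
          rw [induced_one, permChar, show MulAction.fixedBy (G ⧸ (⊤ : Subgroup G)) x = Set.univ from
            Set.eq_univ_of_forall fun y => Subsingleton.elim (α := G ⧸ (⊤ : Subgroup G)) _ _,
            Nat.card_congr (Equiv.Set.univ _), Nat.card_unique]
          simp]
        exact zero_mem _
      haveI := hG
      by_cases hmax : ∃ T : Subgroup G, H < T ∧ T ≠ ⊤
      · obtain ⟨T, hHT, hT⟩ := hmax
        have hlt : Nat.card T < Nat.card G :=
          (Subgroup.card_le_card_group T).lt_of_ne fun h => hT (Subgroup.eq_top_of_card_eq T h)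
        have h1 := induced_mem_monomialSpan T
          (ih _ hlt T rfl inferInstance (H.subgroupOf T))
        have h2 := ihm T.index (Subgroup.index_strictAnti hHT) T rfl
        refine (congrArg (· ∈ monomialSpan G) (funext fun x => ?_)).mp (add_mem h1 h2)
        have h3 := congrFun (induced_induced T (H.subgroupOf T) fun _ => (1 : ℂ)) x
        rw [Subgroup.subgroupOf_map_subtype, inf_eq_left.2 hHT.le] at h3
        rw [Pi.add_apply, show (fun y => induced (H.subgroupOf T) (fun _ => (1 : ℂ)) y - 1) =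
          induced (H.subgroupOf T) (fun _ => (1 : ℂ)) - fun _ => 1 from rfl, ← inducedHom_apply,
          map_sub, Pi.sub_apply, inducedHom_apply, inducedHom_apply, h3]
        ring
      push Not at hmax
      haveI : Nontrivial G := by
        by_contra hnt
        haveI := not_nontrivial_iff_subsingleton.1 hnt
        exact hH (Subsingleton.elim _ _)
      have hquot : ∀ N : Subgroup G, N.Normal → N ≠ ⊥ → N ≤ H →
          (fun x => induced H (fun _ => (1 : ℂ)) x - 1) ∈ monomialSpan G := fun N hN hN0 hle => by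
        haveI := hN
        haveI := Fintype.ofFinite (G ⧸ N)
        have hlt : Nat.card (G ⧸ N) < Nat.card G := by
          rw [Subgroup.card_eq_card_quotient_mul_card_subgroup N]
          exact Nat.lt_mul_iff_one_lt_right Nat.card_pos |>.2 ((Subgroup.one_lt_card_iff_ne_bot N).2 hN0)
        have h1 := comp_mem_monomialSpan (QuotientGroup.mk' N) (QuotientGroup.mk'_surjective N)
          (ih _ hlt (G ⧸ N) rfl inferInstance (H.map (QuotientGroup.mk' N)))
        refine (congrArg (· ∈ monomialSpan G) (funext fun x => ?_)).mp h1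
        show induced (H.map (QuotientGroup.mk' N)) (fun _ => (1 : ℂ)) (QuotientGroup.mk' N x) - 1 = _
        rw [← induced_comap _ (QuotientGroup.mk'_surjective N) _ (fun _ => (1 : ℂ)) x,
          QuotientGroup.comap_map_mk', sup_eq_right.2 hle]
      obtain ⟨A, hA, hA0, hAc⟩ := exists_abelian_normal hG
      haveI := hA
      by_cases hle : A ≤ H
      · exact hquot A hA hA0 hle
      have hsup : A ⊔ H = ⊤ := hmax _ (right_lt_sup.2 hle)
      by_cases hinf : A ⊓ H = ⊥
      · exact complement_mem hAc hinf hsup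
      refine hquot (A ⊓ H) (Subgroup.normalizer_eq_top_iff.1 (eq_top_iff.2 (hsup ▸ sup_le ?_ ?_)))
        hinf inf_le_right
      · intro a ha
        refine Subgroup.mem_normalizer_iff.2 fun g => ⟨fun hg => ?_, fun hg => ?_⟩
        · rwa [hAc a ha g hg.1, mul_inv_cancel_right]
        · have hgA : g ∈ A := by
            have := mul_mem (mul_mem (A.inv_mem ha) hg.1) ha
            rwa [show a⁻¹ * (a * g * a⁻¹) * a = g by group] at this
          rwa [hAc a ha g hgA, mul_inv_cancel_right] at hg
      · intro h hh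
        refine Subgroup.mem_normalizer_iff.2 fun g => ⟨fun hg =>
          ⟨hA.conj_mem g hg.1 h, mul_mem (mul_mem hh hg.2) (H.inv_mem hh)⟩, fun hg => ⟨?_, ?_⟩⟩
        · have := hA.conj_mem _ hg.1 h⁻¹
          rwa [show h⁻¹ * (h * g * h⁻¹) * h⁻¹⁻¹ = g by group] at this
        · have := mul_mem (mul_mem (H.inv_mem hh) hg.2) hh
          rwa [show h⁻¹ * (h * g * h⁻¹) * h = g by group] at this

end FA.ZetaDivisibility

end
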