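import Fermat.Agent.MonomialArtin.Entire
import Fermat.Agent.ZetaDivisibility.AramataBrauer
import Fermat.Agent.ZetaDivisibility.UchidaVanDerWaall

/-!
# Quotients of Dedekind zeta functions

An entire power of a quotient of entire functions gives an entire quotient; so by the two lemmas on
characters the quotient of the zeta functions is entire for a Galois extension and for an extension
with solvable Galois closure.
-/

set_option autoImplicit false
set_option linter.unusedSectionVars false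
set_option linter.style.haveILetI false

noncomputable section

open NumberField Finset Module Filter Topology
open FA.ArtinL (artinL artinL_add artinL_zsmul artinL_one inducedFn galIncl dedekindZeta_eq_artinL)
open FA.CharacterTheory FA.BrauerInduction FA.FrobeniusGroups FA.MonomialArtin
open scoped Classical

namespace FA.ZetaDivisibility

/-- Entire functions equal on `1 < re s` are equal. -/
theorem eq_of_eqOn_halfPlane {f g : ℂ → ℂ} (hf : Differentiable ℂ f) (hg : Differentiable ℂ g)
    (h : ∀ s : ℂ, 1 < s.re → f s = g s) : f = g := by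
  refine AnalyticOnNhd.eq_of_eventuallyEq (z₀ := (2 : ℂ)) (fun z _ => hf.analyticAt z)
    (fun z _ => hg.analyticAt z) ?_
  filter_upwards [(isOpen_Ioi.preimage Complex.continuous_re).mem_nhds
    (show (2 : ℂ) ∈ Complex.re ⁻¹' Set.Ioi 1 by simp)] with s hs
  exact h s hs

/-- **An entire power of a quotient makes the quotient entire.** -/
theorem exists_entire_root {A B E : ℂ → ℂ} (hA : Differentiable ℂ A) (hB : Differentiable ℂ B)
    (hE : Differentiable ℂ E) (hB0 : ∃ z, B z ≠ 0) {N : ℕ} (hN : N ≠ 0)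
    (h : ∀ z, A z ^ N = E z * B z ^ N) :
    ∃ F : ℂ → ℂ, Differentiable ℂ F ∧ ∀ z, A z = F z * B z := by
  have hne : ∀ x, ∀ᶠ z in 𝓝[≠] x, B z ≠ 0 := fun x => by
    rcases (hB.analyticAt x).eventually_eq_zero_or_eventually_ne_zero with h0 | h0
    · obtain ⟨z, hz⟩ := hB0
      exact absurd (congrFun (AnalyticOnNhd.eq_of_eventuallyEq (g := fun _ => (0 : ℂ))
        (fun z _ => hB.analyticAt z) (fun _ _ => analyticAt_const) h0) z) hz
    · exact h0
  set q : ℂ → ℂ := fun z => A z / B z
  have hq : MeromorphicOn q Set.univ := fun x _ =>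
    (hA.analyticAt x).meromorphicAt.fun_div (hB.analyticAt x).meromorphicAt
  set F := toMeromorphicNFOn q Set.univ
  have hFq : ∀ x, F =ᶠ[𝓝[≠] x] q := fun x =>
    hq.toMeromorphicNFOn_eq_self_on_nhdsNE (Set.mem_univ x)
  have hF : ∀ x, AnalyticAt ℂ F x := fun x => by
    have hnf := meromorphicNFOn_toMeromorphicNFOn q Set.univ (Set.mem_univ x)
    refine hnf.meromorphicOrderAt_nonneg_iff_analyticAt.1 ?_
    have h1 : (F ^ N) =ᶠ[𝓝[≠] x] E := by
      filter_upwards [hFq x, hne x] with z hz hz0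
      rw [Pi.pow_apply, hz]
      show (A z / B z) ^ N = E z
      rw [div_pow, h, mul_div_assoc, div_self (pow_ne_zero _ hz0), mul_one]
    have h2 : 0 ≤ meromorphicOrderAt (F ^ N) x :=
      (meromorphicOrderAt_congr h1).symm ▸ (hE.analyticAt x).meromorphicOrderAt_nonneg
    rw [meromorphicOrderAt_pow hnf.meromorphicAt] at h2
    generalize meromorphicOrderAt F x = o at h2 ⊢
    cases o with
    | top => exact le_top
    | coe m =>
      have h3 : (0 : WithTop ℤ) ≤ (((N : ℤ) * m : ℤ) : WithTop ℤ) := by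
        simpa [WithTop.coe_mul] using h2
      exact WithTop.coe_nonneg.2 (nonneg_of_mul_nonneg_right (WithTop.coe_nonneg.1 h3)
        (Int.natCast_pos.2 (Nat.pos_of_ne_zero hN)))
  refine ⟨F, fun x => (hF x).differentiableAt, fun x => ?_⟩
  refine tendsto_nhds_unique (l := 𝓝[≠] x) (((hA.continuous.tendsto x).mono_left nhdsWithin_le_nhds))
    ((((hF x).continuousAt.tendsto.mul (hB.continuous.tendsto x)).mono_left
      nhdsWithin_le_nhds).congr' (f₂ := A) ?_)
  filter_upwards [hFq x, hne x] with z hz hz0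
  show F z * B z = A z
  rw [hz]
  exact div_mul_cancel₀ _ hz0

/-- The zeta function with its pole removed. -/
theorem exists_zeta_cleared (K : Type*) [Field K] [NumberField K] :
    ∃ E : ℂ → ℂ, Differentiable ℂ E ∧
      (∀ s : ℂ, 1 < s.re → E s = (s - 1) * dedekindZeta K s) ∧
      ∀ s : ℂ, 1 ≤ s.re → E s ≠ 0 := by
  obtain ⟨E, hE, hEL, hE0⟩ := exists_linear_cleared (1 : (K ≃ₐ[K] K) →* ℂˣ)
  refine ⟨E, hE, fun s hs => ?_, hE0⟩
  rw [hEL s hs, if_pos rfl, pow_one, ← artinL_one (K := K) (L := K) hs]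
  simp

variable (K L : Type*) [Field K] [NumberField K] [Field L] [NumberField L] [Algebra K L]
  [IsGalois K L]

/-- The function induced from `1` on `Gal(L/M)`. -/
theorem inducedFn_eq_induced (M : Type*) [Field M] [NumberField M] [Algebra K M] [Algebra M L]
    [IsScalarTower K M L] :
    inducedFn K (fun _ : L ≃ₐ[M] L => (1 : ℂ)) =
      induced (galIncl K M L).range fun _ => (1 : ℂ) := by
  have hinj : Function.Injective (galIncl K M L) := fun a b h =>
    AlgEquiv.ext fun x => DFunLike.congr_fun h x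
  funext g
  rw [inducedFn, induced, Nat.card_congr (MonoidHom.ofInjective hinj).toEquiv]
  congr 1
  refine sum_congr rfl fun x _ => ?_
  split_ifs with hx
  · obtain ⟨a, ha⟩ := hx
    rw [sum_eq_single a (fun h _ hne => if_neg fun e => hne (hinj (e.trans ha.symm))) (by simp),
      if_pos ha]
  · exact sum_eq_zero fun h _ => if_neg fun e => hx ⟨h, e⟩

/-- `ζ_M = L(Ind 1 - 1) ζ_K`. -/
theorem dedekindZeta_eq_mul (M : Type*) [Field M] [NumberField M] [Algebra K M] [Algebra M L]
    [IsScalarTower K M L] {s : ℂ} (hs : 1 < s.re) :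
    dedekindZeta M s = artinL (fun x : L ≃ₐ[K] L =>
      induced (galIncl K M L).range (fun _ => (1 : ℂ)) x - 1) s * dedekindZeta K s := by
  rw [dedekindZeta_eq_artinL (K := K) (L := L) hs M, inducedFn_eq_induced, ← artinL_one (L := L) hs,
    ← artinL_add hs]
  congr 1
  funext x
  simp

/-- From an entire power of the L-series to an entire quotient of the zeta functions. -/
theorem exists_zeta_quotient (M : Type*) [Field M] [NumberField M] [Algebra K M] [Algebra M L]
    [IsScalarTower K M L] {N : ℕ} (hN : N ≠ 0)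
    (h : N • (fun x : L ≃ₐ[K] L => induced (galIncl K M L).range (fun _ => (1 : ℂ)) x - 1) ∈
      monomialSpan (L ≃ₐ[K] L)) :
    ∃ F : ℂ → ℂ, Differentiable ℂ F ∧
      (∀ s : ℂ, 1 < s.re → dedekindZeta M s = F s * dedekindZeta K s) ∧
      ∀ s : ℂ, 1 ≤ s.re → F s ≠ 0 := by
  obtain ⟨r, hr, E, hE, hEL, hE0⟩ := exists_entire_of_mem h
  have havg := pairing_induced (galIncl K M L).range (fun _ => (1 : ℂ))
    (F := fun _ : L ≃ₐ[K] L => (1 : ℂ)) fun _ _ => rfl
  simp only [pairing, mul_one] at havg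
  have hr0 : r = 0 := by
    rw [← Nat.cast_inj (R := ℂ), ← hr, Nat.cast_zero]
    simp only [Pi.smul_apply, nsmul_eq_mul]
    have e1 : ∀ {X : Type _} {_i : Fintype X} [Nonempty X],
        (Nat.card X : ℂ)⁻¹ * ∑ _x : X, (1 : ℂ) = 1 := fun {X} _ _ => by
      rw [sum_const, card_univ, nsmul_one, Fintype.card_eq_nat_card,
        inv_mul_cancel₀ (Nat.cast_ne_zero.2 Nat.card_pos.ne')]
    rw [← mul_sum, sum_sub_distrib, mul_left_comm, mul_sub, havg, e1, e1, sub_self, mul_zero]
  subst hr0
  obtain ⟨A, hA, hAL, hA0⟩ := exists_zeta_cleared M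
  obtain ⟨B, hB, hBL, hB0⟩ := exists_zeta_cleared K
  have hAB : ∀ z, A z ^ N = E z * B z ^ N := congrFun <|
    eq_of_eqOn_halfPlane (hA.pow N) (hE.mul (hB.pow N)) fun s hs => by
      rw [hAL s hs, dedekindZeta_eq_mul K L M hs, hEL s hs, hBL s hs, pow_zero, one_mul,
        ← natCast_zsmul, artinL_zsmul, zpow_natCast, ← mul_pow]
      ring
  obtain ⟨F, hF, hFAB⟩ := exists_entire_root hA hB hE ⟨2, hB0 2 (by simp)⟩ hN hAB
  refine ⟨F, hF, fun s hs => ?_, fun s hs h0 => hA0 s hs (by rw [hFAB, h0, zero_mul])⟩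
  have hs1 : s - 1 ≠ 0 := sub_ne_zero.2 fun he => by simp [he] at hs
  have h1 := hFAB s
  rw [hAL s hs, hBL s hs, mul_left_comm] at h1
  exact mul_left_cancel₀ hs1 h1

/-- **Aramata–Brauer.** -/
theorem exists_zeta_quotient_galois :
    ∃ F : ℂ → ℂ, Differentiable ℂ F ∧
      (∀ s : ℂ, 1 < s.re → dedekindZeta L s = F s * dedekindZeta K s) ∧
      ∀ s : ℂ, 1 ≤ s.re → F s ≠ 0 := by
  refine exists_zeta_quotient K L L (Nat.card_pos (α := L ≃ₐ[K] L)).ne'
    ((congrArg (fun f => Nat.card (L ≃ₐ[K] L) • f ∈ monomialSpan (L ≃ₐ[K] L))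
      (funext fun x => ?_)).mp regular_sub_one_mem)
  have hbot : (galIncl K L L).range = ⊥ := by
    rw [eq_bot_iff]
    rintro _ ⟨a, rfl⟩
    exact Subgroup.mem_bot.2 (AlgEquiv.ext fun y => a.commutes y)
  rw [hbot, induced_eq, Subgroup.card_bot, Nat.cast_one, inv_one, one_mul]
  congr 1
  have hterm : ∀ g : L ≃ₐ[K] L, zext (⊥ : Subgroup (L ≃ₐ[K] L)) (fun _ => (1 : ℂ)) (g * x * g⁻¹) =
      if x = 1 then 1 else 0 := fun g => by
    simp only [zext, Subgroup.mem_bot, mul_inv_eq_one, mul_eq_left, dite_eq_ite]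
  rw [sum_congr rfl fun g _ => hterm g, sum_const, card_univ, nsmul_eq_mul, mul_ite, mul_one,
    mul_zero, Nat.card_eq_fintype_card]

/-- **Uchida–van der Waall.** -/
theorem exists_zeta_quotient_solvable (M : Type*) [Field M] [NumberField M] [Algebra K M]
    [Algebra M L] [IsScalarTower K M L] (hG : Group.IsSolvable (L ≃ₐ[K] L)) :
    ∃ F : ℂ → ℂ, Differentiable ℂ F ∧
      (∀ s : ℂ, 1 < s.re → dedekindZeta M s = F s * dedekindZeta K s) ∧
      ∀ s : ℂ, 1 ≤ s.re → F s ≠ 0 := by
  refine exists_zeta_quotient K L M one_ne_zero ?_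
  rw [one_smul]
  exact permChar_sub_one_mem _ _ rfl hG _

end FA.ZetaDivisibility

end
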