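import Fermat.Agent.ZetaDivisibility.Quotient
import Fermat.Agent.Solvable.Burnside

/-!
# Normal closures and degree at most four

The quotient of zeta functions for a field with solvable normal closure; extensions of degree at
most four have one.
-/

set_option autoImplicit false
set_option linter.unusedSectionVars false
set_option linter.style.haveILetI false

noncomputable section

open NumberField Module IntermediateField

namespace FA.ZetaDivisibility

variable (K M : Type*) [Field K] [NumberField K] [Field M] [NumberField M] [Algebra K M]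

/-- The Galois closure has group inside the permutations of the embeddings. -/
theorem isSolvable_closure_of_finrank_le (h4 : finrank K M ≤ 4) :
    Group.IsSolvable (normalClosure K M (AlgebraicClosure M) ≃ₐ[K]
      normalClosure K M (AlgebraicClosure M)) := by
  haveI : Algebra.IsAlgebraic K (AlgebraicClosure M) := Algebra.IsAlgebraic.trans K M _
  set N := normalClosure K M (AlgebraicClosure M)
  let φ : (N ≃ₐ[K] N) →* Equiv.Perm (M →ₐ[K] N) :=
    { toFun := fun g =>
        { toFun := fun f => g.toAlgHom.comp f
          invFun := fun f => g.symm.toAlgHom.comp f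
          left_inv := fun f => AlgHom.ext fun x => g.symm_apply_apply _
          right_inv := fun f => AlgHom.ext fun x => g.apply_symm_apply _ }
      map_one' := Equiv.ext fun f => AlgHom.ext fun x => rfl
      map_mul' := fun a b => Equiv.ext fun f => AlgHom.ext fun x => rfl }
  have hφ : Function.Injective φ := by
    refine (injective_iff_map_eq_one φ).2 fun g hg => ?_
    let S : IntermediateField K N := fixedField (Subgroup.zpowers g)
    have hfix : ∀ x : N, g x = x → x ∈ S := fun x hx => by
      rintro ⟨k, hk⟩
      obtain ⟨i, rfl⟩ := hk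
      exact (Subgroup.zpowers_le.2 (show g ∈ MulAction.stabilizer (N ≃ₐ[K] N) x from hx)) ⟨i, rfl⟩
    have hle : N ≤ IntermediateField.lift S := by
      refine iSup_le fun f => ?_
      rintro _ ⟨y, rfl⟩
      let f' : M →ₐ[K] N := f.codRestrict N.toSubalgebra fun x =>
        f.fieldRange_le_normalClosure ⟨x, rfl⟩
      exact ⟨f' y, hfix _ (DFunLike.congr_fun (Equiv.congr_fun hg f') y), rfl⟩
    refine AlgEquiv.ext fun x => ?_
    obtain ⟨y, hy, hyx⟩ := hle x.2
    rw [← show y = x from Subtype.ext hyx]
    exact hy ⟨g, Subgroup.mem_zpowers g⟩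
  haveI : Finite (M →ₐ[K] N) := inferInstance
  obtain ⟨e⟩ : Nonempty ((M →ₐ[K] N) ↪ Fin 4) := by
    haveI := Fintype.ofFinite (M →ₐ[K] N)
    refine Function.Embedding.nonempty_of_card_le ?_
    rw [Fintype.card_fin, Fintype.card_eq_nat_card]
    exact card_algHom_le_finrank K M N |>.trans h4
  haveI : Group.IsSolvable (Equiv.Perm (Fin 4)) :=
    FA.Solvable.isSolvable_of_dvd Nat.prime_two Nat.prime_three 3 1 _
      (by rw [Nat.card_perm, Nat.card_fin]; rfl)
  exact Group.isSolvable_of_isSolvable_injective
    (f := (Equiv.Perm.viaEmbeddingHom e).comp φ)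
    ((Equiv.Perm.viaEmbeddingHom_injective e).comp hφ)

/-- **Uchida–van der Waall** for a field with solvable Galois closure. -/
theorem exists_zeta_quotient_closure
    (hG : Group.IsSolvable (normalClosure K M (AlgebraicClosure M) ≃ₐ[K]
      normalClosure K M (AlgebraicClosure M))) :
    ∃ F : ℂ → ℂ, Differentiable ℂ F ∧
      (∀ s : ℂ, 1 < s.re → dedekindZeta M s = F s * dedekindZeta K s) ∧
      ∀ s : ℂ, 1 ≤ s.re → F s ≠ 0 := by
  haveI : Algebra.IsAlgebraic K (AlgebraicClosure M) := Algebra.IsAlgebraic.trans K M _
  haveI : IsAlgClosure K (AlgebraicClosure M) := ⟨inferInstance, inferInstance⟩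
  let N := normalClosure K M (AlgebraicClosure M)
  haveI : NumberField N := NumberField.of_module_finite K N
  haveI : IsGalois K N := ⟨⟩
  exact exists_zeta_quotient_solvable K N M hG

end FA.ZetaDivisibility

end
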